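import Mathlib
import Fermat.Agent.LT.T3.H984.Whitney
import Fermat.Agent.LT.T6.H517.Abel

/-!
# Row LT, tower T3, station T3.18R, leaf R.1 (helper773, SPARE): real Abel inversion, THE CORE

OFF-MAIN.  Mathlib + the byte-identical assets `LT/T3/H984/{ParamInt,Hadamard,Whitney}.lean`
(helper984) and `LT/T6/H517/Abel.lean` (helper517).

For `E(u, c)` smooth on `ℝ²`, even in `u`, vanishing for `|u| ≥ R` and for `|c| ≥ C`, there is
`H(y, c)`, smooth on the closed half plane `{y ≥ 1}`, vanishing for `y ≥ cosh (R + 1)` and for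
`|c| ≥ C`, with `∫_ℝ H(cosh u + s², c) ds = E(u, c)` (`abelCore773`).

Construction: `L = ∂_u E / sinh u` (`opL984`, smooth and even), `ρ_L(y, c) = L(arcosh y, c)`
(Whitney: smooth on `{y ≥ 1}`), `G(r, c) = ∫_ℝ ρ_L(cosh r + t², c) dt` (smooth on `ℝ²`: a
parametric integral with compact support, `contDiffOn_convolution_right_with_param`; even in
`r`), `H(y, c) = -(1/π) G(arcosh y, c)` (Whitney again).  The identity is the classical Abel
inversion: polar coordinates (`integral_radial517`) and the fundamental theorem of calculus.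
-/

set_option autoImplicit false

noncomputable section

namespace Fermat.Agent.LT.T3.H773

open Set Filter Topology MeasureTheory
open scoped ContDiff Convolution
open Fermat.Agent.LT.T3.H984 Fermat.Agent.LT.T6.H517

/-- `E` vanishes for `R ≤ |u|` and for `C ≤ |c|`. -/
structure IsBox773 (E : ℝ × ℝ → ℂ) (R C : ℝ) : Prop where
  u : ∀ u c : ℝ, R ≤ |u| → E (u, c) = 0
  c : ∀ u c : ℝ, C ≤ |c| → E (u, c) = 0

variable {E : ℝ × ℝ → ℂ} {R C : ℝ}

theorem d1_zero_u773 (hE : ContDiff ℝ ∞ E) (hb : IsBox773 E R C) (u c : ℝ) (hu : R < |u|) :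
    d1_984 E (u, c) = 0 := by
  rw [d1_eq_deriv984 hE]
  have : (fun t : ℝ => E (t, c)) =ᶠ[𝓝 u] fun _ => (0 : ℂ) := by
    have hopen : IsOpen {t : ℝ | R < |t|} := isOpen_lt continuous_const continuous_abs
    filter_upwards [hopen.mem_nhds hu] with t ht
    exact hb.u t c (le_of_lt ht)
  rw [this.deriv_eq]
  simp

theorem d1_zero_c773 (hE : ContDiff ℝ ∞ E) (hb : IsBox773 E R C) (u c : ℝ) (hc : C ≤ |c|) :
    d1_984 E (u, c) = 0 := by
  rw [d1_eq_deriv984 hE]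
  have : (fun t : ℝ => E (t, c)) = fun _ => (0 : ℂ) := funext fun t => hb.c t c hc
  rw [this]
  simp

theorem opL_zero_of_d1_773 (hE : ContDiff ℝ ∞ E) (hev : IsEv984 E) (u c : ℝ) (hu : u ≠ 0)
    (h : d1_984 E (u, c) = 0) : opL984 E (u, c) = 0 := by
  have h1 := opL_mul984 hE hev u c
  rw [h] at h1
  have hs : (Real.sinh u : ℂ) ≠ 0 := by
    rw [Ne, Complex.ofReal_eq_zero, Real.sinh_eq_zero]
    exact hu
  exact (mul_eq_zero.mp h1.symm).resolve_left hs

theorem opL_zero_u773 (hE : ContDiff ℝ ∞ E) (hev : IsEv984 E) (hb : IsBox773 E R C)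
    (hR : 0 ≤ R) (u c : ℝ) (hu : R < |u|) : opL984 E (u, c) = 0 :=
  opL_zero_of_d1_773 hE hev u c
    (by intro h; rw [h, abs_zero] at hu; linarith) (d1_zero_u773 hE hb u c hu)

theorem opL_zero_c773 (hE : ContDiff ℝ ∞ E) (hev : IsEv984 E) (hb : IsBox773 E R C)
    (u c : ℝ) (hc : C ≤ |c|) : opL984 E (u, c) = 0 := by
  have hcont : Continuous fun t : ℝ => opL984 E (t, c) :=
    (opL_contDiff984 hE).continuous.comp (by fun_prop)
  have hd : Dense ({0}ᶜ : Set ℝ) := dense_compl_singleton 0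
  have := Continuous.ext_on hd hcont (continuous_const (y := (0 : ℂ)))
    (fun t ht => opL_zero_of_d1_773 hE hev t c ht (d1_zero_c773 hE hb t c hc))
  exact congrFun this u

/-- `ρ_L(y, c) = L(arcosh y, c)`, `L = ∂_u E / sinh u`. -/
def rL773 (E : ℝ × ℝ → ℂ) : ℝ × ℝ → ℂ := rho984 (opL984 E)

theorem rL_contDiffOn773 (hE : ContDiff ℝ ∞ E) (hev : IsEv984 E) :
    ContDiffOn ℝ ∞ (rL773 E) hp984 :=
  rho_contDiffOn984 (opL_contDiff984 hE) (opL_even984 hE hev)

theorem rL_zero_u773 (hE : ContDiff ℝ ∞ E) (hev : IsEv984 E) (hb : IsBox773 E R C)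
    (hR : 0 ≤ R) (y c : ℝ) (hy : Real.cosh (R + 1) ≤ y) : rL773 E (y, c) = 0 := by
  unfold rL773 rho984 inn984
  apply opL_zero_u773 hE hev hb hR
  have h1 : (1 : ℝ) ≤ y := le_trans (Real.one_le_cosh _) hy
  have h2 : R + 1 ≤ Real.arcosh y := by
    rw [← Real.arcosh_cosh (by linarith : (0 : ℝ) ≤ R + 1)]
    exact (Real.arcosh_le_arcosh (Real.cosh_pos _) (by linarith)).mpr hy
  show R < |Real.arcosh y|
  rw [abs_of_nonneg (Real.arcosh_nonneg h1)]
  linarith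

theorem rL_zero_c773 (hE : ContDiff ℝ ∞ E) (hev : IsEv984 E) (hb : IsBox773 E R C)
    (y c : ℝ) (hc : C ≤ |c|) : rL773 E (y, c) = 0 :=
  opL_zero_c773 hE hev hb _ c hc

/-- The integrand `ρ_L(cosh r + t², c)`. -/
def gfun773 (E : ℝ × ℝ → ℂ) (p : ℝ × ℝ) (t : ℝ) : ℂ := rL773 E (Real.cosh p.1 + t ^ 2, p.2)

theorem gfun_contDiff773 (hE : ContDiff ℝ ∞ E) (hev : IsEv984 E) :
    ContDiff ℝ ∞ (fun q : (ℝ × ℝ) × ℝ => gfun773 E q.1 q.2) := by
  rw [← contDiffOn_univ]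
  have hmap : ContDiff ℝ ∞ (fun q : (ℝ × ℝ) × ℝ => (Real.cosh q.1.1 + q.2 ^ 2, q.1.2)) := by
    refine ContDiff.prodMk ?_ (contDiff_snd.comp contDiff_fst)
    exact (Real.contDiff_cosh.comp (contDiff_fst.comp contDiff_fst)).add (contDiff_snd.pow 2)
  refine (rL_contDiffOn773 hE hev).comp hmap.contDiffOn fun q _ => ⟨?_, mem_univ _⟩
  show (1 : ℝ) ≤ Real.cosh q.1.1 + q.2 ^ 2
  nlinarith [Real.one_le_cosh q.1.1, sq_nonneg q.2]

theorem gfun_zero773 (hE : ContDiff ℝ ∞ E) (hev : IsEv984 E) (hb : IsBox773 E R C)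
    (hR : 0 ≤ R) (p : ℝ × ℝ) (t : ℝ)
    (ht : t ∉ Metric.closedBall (0 : ℝ) (Real.cosh (R + 1))) : gfun773 E p t = 0 := by
  apply rL_zero_u773 hE hev hb hR
  have h0 : Real.cosh (R + 1) < |t| := by
    simpa [Metric.mem_closedBall, Real.dist_eq] using ht
  have h1 : 1 ≤ Real.cosh (R + 1) := Real.one_le_cosh _
  have h2 : Real.cosh (R + 1) ≤ t ^ 2 := by
    rw [← sq_abs]
    nlinarith
  nlinarith [Real.one_le_cosh p.1]

/-- `G(r, c) = ∫_ℝ ρ_L(cosh r + t², c) dt`. -/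
def gInt773 (E : ℝ × ℝ → ℂ) (p : ℝ × ℝ) : ℂ := ∫ t : ℝ, gfun773 E p t

/-- The convolution of `1` with the integrand, as a function of the parameter and the point. -/
def gConv773 (E : ℝ × ℝ → ℂ) (q : (ℝ × ℝ) × ℝ) : ℂ :=
  ((fun _ : ℝ => (1 : ℝ)) ⋆[(ContinuousLinearMap.lsmul ℝ ℝ : ℝ →L[ℝ] ℂ →L[ℝ] ℂ), volume]
    gfun773 E q.1) q.2

theorem gConv_eq773 (E : ℝ × ℝ → ℂ) (p : ℝ × ℝ) : gConv773 E (p, 0) = gInt773 E p := by
  unfold gConv773 gInt773
  rw [MeasureTheory.convolution_def]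
  congr 1
  funext t
  simp only [ContinuousLinearMap.lsmul_apply, one_smul, zero_sub, gfun773, neg_sq]

theorem gConv_contDiff773 (hE : ContDiff ℝ ∞ E) (hev : IsEv984 E) (hb : IsBox773 E R C)
    (hR : 0 ≤ R) : ContDiff ℝ ∞ (gConv773 E) := by
  have hg' : ContDiffOn ℝ ((⊤ : ℕ∞) : WithTop ℕ∞) ↿(gfun773 E) (univ ×ˢ univ) :=
    (gfun_contDiff773 hE hev).contDiffOn
  have key : ContDiffOn ℝ ((⊤ : ℕ∞) : WithTop ℕ∞) (gConv773 E) (univ ×ˢ univ) :=
    contDiffOn_convolution_right_with_param (μ := volume)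
      (ContinuousLinearMap.lsmul ℝ ℝ : ℝ →L[ℝ] ℂ →L[ℝ] ℂ) (f := fun _ : ℝ => (1 : ℝ))
      (g := gfun773 E) (s := univ) (k := Metric.closedBall (0 : ℝ) (Real.cosh (R + 1)))
      isOpen_univ (isCompact_closedBall _ _)
      (fun p x _ hx => gfun_zero773 hE hev hb hR p x hx) (locallyIntegrable_const 1) hg'
  rw [univ_prod_univ] at key
  exact contDiffOn_univ.mp key

theorem gInt_contDiff773 (hE : ContDiff ℝ ∞ E) (hev : IsEv984 E) (hb : IsBox773 E R C)
    (hR : 0 ≤ R) : ContDiff ℝ ∞ (gInt773 E) := by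
  have key2 : ContDiff ℝ ∞ (fun p : ℝ × ℝ => gConv773 E (p, (0 : ℝ))) :=
    (gConv_contDiff773 hE hev hb hR).comp (contDiff_id.prodMk contDiff_const)
  have e : gInt773 E = fun p : ℝ × ℝ => gConv773 E (p, (0 : ℝ)) := by
    funext p
    exact (gConv_eq773 E p).symm
  rw [e]
  exact key2

theorem gInt_even773 (E : ℝ × ℝ → ℂ) : IsEv984 (gInt773 E) := by
  intro u c
  simp only [gInt773, gfun773, Real.cosh_neg]

/-- THE ABEL INVERSE `H(y, c) = -(1/π) ∫_ℝ ρ_L(y + t², c) dt` (for `y ≥ 1`). -/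
def hAbel773 (E : ℝ × ℝ → ℂ) (p : ℝ × ℝ) : ℂ :=
  (-(1 / Real.pi) : ℝ) • rho984 (gInt773 E) p

theorem hAbel_contDiffOn773 (hE : ContDiff ℝ ∞ E) (hev : IsEv984 E) (hb : IsBox773 E R C)
    (hR : 0 ≤ R) : ContDiffOn ℝ ∞ (hAbel773 E) hp984 :=
  (rho_contDiffOn984 (gInt_contDiff773 hE hev hb hR) (gInt_even773 E)).const_smul _

theorem hAbel_eq773 (E : ℝ × ℝ → ℂ) (y c : ℝ) (hy : 1 ≤ y) :
    hAbel773 E (y, c) = (-(1 / Real.pi) : ℝ) • ∫ t : ℝ, rL773 E (y + t ^ 2, c) := by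
  simp only [hAbel773, rho984, inn984, gInt773, gfun773, Real.cosh_arcosh hy]

theorem hAbel_zero_u773 (hE : ContDiff ℝ ∞ E) (hev : IsEv984 E) (hb : IsBox773 E R C)
    (hR : 0 ≤ R) (y c : ℝ) (hy : Real.cosh (R + 1) ≤ y) : hAbel773 E (y, c) = 0 := by
  rw [hAbel_eq773 E y c (le_trans (Real.one_le_cosh _) hy)]
  have : (fun t : ℝ => rL773 E (y + t ^ 2, c)) = fun _ => (0 : ℂ) :=
    funext fun t => rL_zero_u773 hE hev hb hR _ c (by nlinarith [sq_nonneg t])
  rw [this]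
  simp

theorem hAbel_zero_c773 (hE : ContDiff ℝ ∞ E) (hev : IsEv984 E) (hb : IsBox773 E R C)
    (y c : ℝ) (hy : 1 ≤ y) (hc : C ≤ |c|) : hAbel773 E (y, c) = 0 := by
  rw [hAbel_eq773 E y c hy]
  have : (fun t : ℝ => rL773 E (y + t ^ 2, c)) = fun _ => (0 : ℂ) :=
    funext fun t => rL_zero_c773 hE hev hb _ c hc
  rw [this]
  simp

/-- **Abel inversion.** -/
theorem hAbel_abel773 (hE : ContDiff ℝ ∞ E) (hev : IsEv984 E) (hb : IsBox773 E R C)
    (hR : 0 ≤ R) (u c : ℝ) : ∫ s : ℝ, hAbel773 E (Real.cosh u + s ^ 2, c) = E (u, c) := by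
  have hy₀ : (1 : ℝ) ≤ Real.cosh u := Real.one_le_cosh u
  set y₀ : ℝ := Real.cosh u with hy₀def
  let Gw : ℝ → ℂ := fun w => rL773 E (y₀ + max w 0, c)
  have hGwc : Continuous Gw := by
    have hmap : Continuous fun w : ℝ => ((y₀ + max w 0, c) : ℝ × ℝ) := by fun_prop
    refine (rL_contDiffOn773 hE hev).continuousOn.comp_continuous hmap fun w => ⟨?_, mem_univ _⟩
    show (1 : ℝ) ≤ y₀ + max w 0
    linarith [le_max_right w 0]
  have hGwv : VanishesAbove517 Gw (Real.cosh (R + 1)) := by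
    intro w hw
    apply rL_zero_u773 hE hev hb hR
    have : w ≤ max w 0 := le_max_left _ _
    linarith
  have hrad := integral_radial517 hGwc hGwv
  have hL : ∫ s : ℝ, hAbel773 E (y₀ + s ^ 2, c)
      = (-(1 / Real.pi) : ℝ) • ∫ s : ℝ, ∫ w : ℝ, Gw (s ^ 2 + w ^ 2) := by
    rw [← integral_smul]
    congr 1
    funext s
    rw [hAbel_eq773 E _ c (by nlinarith [sq_nonneg s])]
    congr 2
    funext w
    simp only [Gw]
    rw [max_eq_left (by positivity)]
    congr 2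
    ring
  rw [hL, hrad]
  have hF : ∫ w in Ioi (0 : ℝ), Gw w = - E (u, c) := by
    have e1 : ∫ w in Ioi (0 : ℝ), Gw w = ∫ w in Ioi (0 : ℝ), rL773 E (y₀ + w, c) := by
      refine setIntegral_congr_fun measurableSet_Ioi fun w hw => ?_
      simp only [Gw, max_eq_left (le_of_lt (mem_Ioi.mp hw))]
    rw [e1]
    have hderiv : ∀ w ∈ Ioi (0 : ℝ),
        HasDerivAt (fun w => rho984 E (y₀ + w, c)) (rL773 E (y₀ + w, c)) w := by
      intro w hw
      have hp : ((y₀ + w, c) : ℝ × ℝ) ∈ hpo984 :=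
        ⟨by show (1 : ℝ) < y₀ + w; linarith [mem_Ioi.mp hw], mem_univ _⟩
      have h1 := rho_hasFDerivAt984 hE hev (y₀ + w, c) hp
      have h2 : HasDerivAt (fun w : ℝ => ((y₀ + w, c) : ℝ × ℝ)) ((1, 0) : ℝ × ℝ) w :=
        ((hasDerivAt_id w).const_add y₀).prodMk (hasDerivAt_const w c)
      have h3 := h1.comp_hasDerivAt w h2
      have e : der984 E (y₀ + w, c) ((1, 0) : ℝ × ℝ) = rL773 E (y₀ + w, c) := by
        simp [der984, rL773]
      rw [e] at h3
      exact h3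
    have hcont : ContinuousWithinAt (fun w => rho984 E (y₀ + w, c)) (Ici 0) 0 := by
      have hmap : Continuous fun w : ℝ => ((y₀ + w, c) : ℝ × ℝ) := by fun_prop
      have : ContinuousOn (fun w => rho984 E (y₀ + w, c)) (Ici 0) :=
        (rho_contOn984 hE.continuous).comp hmap.continuousOn fun w hw =>
          ⟨by show (1 : ℝ) ≤ y₀ + w; linarith [mem_Ici.mp hw], mem_univ _⟩
      exact this 0 self_mem_Ici
    have hint : IntegrableOn (fun w => rL773 E (y₀ + w, c)) (Ioi 0) := by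
      have hGi : IntegrableOn Gw (Ioi 0) := by
        have hK : IntegrableOn Gw (Icc 0 (Real.cosh (R + 1))) :=
          hGwc.continuousOn.integrableOn_compact isCompact_Icc
        refine hK.of_forall_sdiff_eq_zero measurableSet_Ioi ?_
        rintro w ⟨hw, hn⟩
        apply hGwv
        by_contra hcon
        exact hn ⟨le_of_lt hw, le_of_not_ge hcon⟩
      exact hGi.congr_fun (fun w hw => by
        simp only [Gw, max_eq_left (le_of_lt (mem_Ioi.mp hw))]) measurableSet_Ioi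
    have htend : Tendsto (fun w => rho984 E (y₀ + w, c)) atTop (𝓝 0) := by
      apply tendsto_const_nhds.congr'
      filter_upwards [eventually_ge_atTop (Real.cosh (R + 1))] with w hw
      symm
      show E (Real.arcosh (y₀ + w), c) = 0
      apply hb.u
      have h1 : (1 : ℝ) ≤ y₀ + w := by linarith [Real.one_le_cosh (R + 1)]
      have h2 : R + 1 ≤ Real.arcosh (y₀ + w) := by
        rw [← Real.arcosh_cosh (by linarith : (0 : ℝ) ≤ R + 1)]
        exact (Real.arcosh_le_arcosh (Real.cosh_pos _) (by linarith)).mpr (by linarith)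
      rw [abs_of_nonneg (Real.arcosh_nonneg h1)]
      linarith
    rw [integral_Ioi_of_hasDerivAt_of_tendsto hcont hderiv hint htend]
    simp only [add_zero, zero_sub]
    congr 1
    show E (Real.arcosh (Real.cosh u), c) = E (u, c)
    rcases le_total 0 u with h | h
    · rw [Real.arcosh_cosh h]
    · rw [← Real.cosh_neg, Real.arcosh_cosh (by linarith), hev]
  rw [hF, smul_smul]
  have : (-(1 / Real.pi) * Real.pi : ℝ) = -1 := by
    field_simp
  rw [this]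
  simp

/-- **THE CORE: real Abel inversion with a parameter.** -/
theorem abelCore773 (hE : ContDiff ℝ ∞ E) (hev : IsEv984 E) (hb : IsBox773 E R C)
    (hR : 0 ≤ R) :
    ∃ H : ℝ × ℝ → ℂ, ContDiffOn ℝ ∞ H hp984 ∧
      (∀ y c : ℝ, Real.cosh (R + 1) ≤ y → H (y, c) = 0) ∧
      (∀ y c : ℝ, 1 ≤ y → C ≤ |c| → H (y, c) = 0) ∧
      ∀ u c : ℝ, ∫ s : ℝ, H (Real.cosh u + s ^ 2, c) = E (u, c) :=
  ⟨hAbel773 E, hAbel_contDiffOn773 hE hev hb hR, hAbel_zero_u773 hE hev hb hR,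
    hAbel_zero_c773 hE hev hb, hAbel_abel773 hE hev hb hR⟩

end Fermat.Agent.LT.T3.H773

end
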