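import Mathlib
import Fermat.Agent.LT.T6.SpecArch
import Fermat.Agent.LT.T3.H736.ASSpec
import Fermat.Agent.LT.T3.H773.AbelCore

/-!
# Row LT, tower T3, station T3.18R, leaf R.1 (helper773, SPARE): the test function on `GL₂(ℝ)`

OFF-MAIN.  `abelF773 P H g = P(g) H(ρ(g), log det g)` for `det g > 0`, `0` for `det g < 0`
(`ρ = T6.rhoR`, `P = 1`, `conj (holPart)`, `holPart` for the weights `0, 1, -1`), `H` smooth on the
closed half plane `{ρ ≥ 1}` with bounded support: it is a test function of weight `n`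
(`T6.IsArchTestR`), and its `N`-integral is computed from the Abel transform of `H`.
-/

set_option autoImplicit false

noncomputable section

namespace Fermat.Agent.LT.T3.H773

open Set Filter Topology MeasureTheory
open scoped ContDiff Matrix
open Fermat.Agent.LT.T3.H984
open Fermat.Agent.LT.T6 (InSO2 holPart wtChar IsArchTestR rhoR)
open Fermat.Agent.LT.T3.AS (upperGL IsSymBump)

/-! ## 1. Algebra -/

/-- The sum of the squares of the entries. -/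
def ssq773 (M : Matrix (Fin 2) (Fin 2) ℝ) : ℝ := M 0 0 ^ 2 + M 0 1 ^ 2 + M 1 0 ^ 2 + M 1 1 ^ 2

theorem rhoR_eq773 (g : GL (Fin 2) ℝ) :
    rhoR g = ssq773 (g : Matrix (Fin 2) (Fin 2) ℝ) / (2 * |(g : Matrix (Fin 2) (Fin 2) ℝ).det|) := by
  unfold rhoR ssq773
  congr 1
  rw [Matrix.trace_fin_two, Matrix.mul_apply, Matrix.mul_apply, Fin.sum_univ_two,
    Fin.sum_univ_two]
  simp only [Matrix.transpose_apply]
  ring

theorem det_ne_zero773 (g : GL (Fin 2) ℝ) : (g : Matrix (Fin 2) (Fin 2) ℝ).det ≠ 0 :=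
  Matrix.GeneralLinearGroup.det_ne_zero g

theorem two_abs_det_le_ssq773 (M : Matrix (Fin 2) (Fin 2) ℝ) : 2 * |M.det| ≤ ssq773 M := by
  rw [Matrix.det_fin_two]
  unfold ssq773
  rcases abs_cases (M 0 0 * M 1 1 - M 0 1 * M 1 0) with ⟨h, -⟩ | ⟨h, -⟩
  · rw [h]
    nlinarith [sq_nonneg (M 0 0 - M 1 1), sq_nonneg (M 0 1 + M 1 0)]
  · rw [h]
    nlinarith [sq_nonneg (M 0 0 + M 1 1), sq_nonneg (M 0 1 - M 1 0)]

theorem one_le_rhoR773 (g : GL (Fin 2) ℝ) : 1 ≤ rhoR g := by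
  rw [rhoR_eq773, le_div_iff₀ (by have := abs_pos.mpr (det_ne_zero773 g); positivity)]
  linarith [two_abs_det_le_ssq773 (g : Matrix (Fin 2) (Fin 2) ℝ)]

/-- The shape of the elements of `SO(2)`. -/
theorem so2_form773 (k : GL (Fin 2) ℝ) (hk : InSO2 k) :
    (k : Matrix (Fin 2) (Fin 2) ℝ) 1 1 = (k : Matrix (Fin 2) (Fin 2) ℝ) 0 0 ∧
      (k : Matrix (Fin 2) (Fin 2) ℝ) 0 1 = -(k : Matrix (Fin 2) (Fin 2) ℝ) 1 0 ∧
      (k : Matrix (Fin 2) (Fin 2) ℝ) 0 0 ^ 2 + (k : Matrix (Fin 2) (Fin 2) ℝ) 1 0 ^ 2 = 1 := by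
  obtain ⟨h1, h2⟩ := hk
  rw [Matrix.det_fin_two] at h2
  have e00 := congrFun (congrFun h1 0) 0
  have e11 := congrFun (congrFun h1 1) 1
  simp only [Matrix.mul_apply, Fin.sum_univ_two, Matrix.transpose_apply, Matrix.one_apply_eq]
    at e00 e11
  have hsq : ((k : Matrix (Fin 2) (Fin 2) ℝ) 0 0 - (k : Matrix (Fin 2) (Fin 2) ℝ) 1 1) ^ 2
      + ((k : Matrix (Fin 2) (Fin 2) ℝ) 0 1 + (k : Matrix (Fin 2) (Fin 2) ℝ) 1 0) ^ 2 = 0 := by
    linear_combination e00 + e11 - 2 * h2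
  have ha : ((k : Matrix (Fin 2) (Fin 2) ℝ) 0 0 - (k : Matrix (Fin 2) (Fin 2) ℝ) 1 1) ^ 2 = 0 :=
    le_antisymm (by nlinarith [sq_nonneg ((k : Matrix (Fin 2) (Fin 2) ℝ) 0 1
      + (k : Matrix (Fin 2) (Fin 2) ℝ) 1 0)]) (sq_nonneg _)
  have hb : ((k : Matrix (Fin 2) (Fin 2) ℝ) 0 1 + (k : Matrix (Fin 2) (Fin 2) ℝ) 1 0) ^ 2 = 0 :=
    le_antisymm (by nlinarith [sq_nonneg ((k : Matrix (Fin 2) (Fin 2) ℝ) 0 0
      - (k : Matrix (Fin 2) (Fin 2) ℝ) 1 1)]) (sq_nonneg _)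
  have ha' := pow_eq_zero_iff (two_ne_zero) |>.mp ha
  have hb' := pow_eq_zero_iff (two_ne_zero) |>.mp hb
  have h11 : (k : Matrix (Fin 2) (Fin 2) ℝ) 1 1 = (k : Matrix (Fin 2) (Fin 2) ℝ) 0 0 := by
    linarith
  have h01 : (k : Matrix (Fin 2) (Fin 2) ℝ) 0 1 = -(k : Matrix (Fin 2) (Fin 2) ℝ) 1 0 := by
    linarith
  refine ⟨h11, h01, ?_⟩
  rw [h01] at e00
  linear_combination e00

theorem mul_entry773 (a b : GL (Fin 2) ℝ) (i j : Fin 2) :
    ((a * b : GL (Fin 2) ℝ) : Matrix (Fin 2) (Fin 2) ℝ) i j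
      = (a : Matrix (Fin 2) (Fin 2) ℝ) i 0 * (b : Matrix (Fin 2) (Fin 2) ℝ) 0 j
        + (a : Matrix (Fin 2) (Fin 2) ℝ) i 1 * (b : Matrix (Fin 2) (Fin 2) ℝ) 1 j := by
  rw [Units.val_mul, Matrix.mul_apply, Fin.sum_univ_two]

theorem det_mul773 (a b : GL (Fin 2) ℝ) :
    ((a * b : GL (Fin 2) ℝ) : Matrix (Fin 2) (Fin 2) ℝ).det
      = (a : Matrix (Fin 2) (Fin 2) ℝ).det * (b : Matrix (Fin 2) (Fin 2) ℝ).det := by
  rw [Units.val_mul, Matrix.det_mul]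

theorem det_so2_mul773 (k g : GL (Fin 2) ℝ) (hk : InSO2 k) :
    ((k * g : GL (Fin 2) ℝ) : Matrix (Fin 2) (Fin 2) ℝ).det
      = (g : Matrix (Fin 2) (Fin 2) ℝ).det := by
  rw [det_mul773, hk.2, one_mul]

theorem det_mul_so2_773 (k g : GL (Fin 2) ℝ) (hk : InSO2 k) :
    ((g * k : GL (Fin 2) ℝ) : Matrix (Fin 2) (Fin 2) ℝ).det
      = (g : Matrix (Fin 2) (Fin 2) ℝ).det := by
  rw [det_mul773, hk.2, mul_one]

theorem ssq_so2_mul773 (k g : GL (Fin 2) ℝ) (hk : InSO2 k) :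
    ssq773 ((k * g : GL (Fin 2) ℝ) : Matrix (Fin 2) (Fin 2) ℝ)
      = ssq773 (g : Matrix (Fin 2) (Fin 2) ℝ) := by
  obtain ⟨h11, h01, hsq⟩ := so2_form773 k hk
  unfold ssq773
  simp only [mul_entry773, h11, h01]
  linear_combination ((g : Matrix (Fin 2) (Fin 2) ℝ) 0 0 ^ 2
    + (g : Matrix (Fin 2) (Fin 2) ℝ) 0 1 ^ 2 + (g : Matrix (Fin 2) (Fin 2) ℝ) 1 0 ^ 2
    + (g : Matrix (Fin 2) (Fin 2) ℝ) 1 1 ^ 2) * hsq

theorem ssq_mul_so2_773 (k g : GL (Fin 2) ℝ) (hk : InSO2 k) :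
    ssq773 ((g * k : GL (Fin 2) ℝ) : Matrix (Fin 2) (Fin 2) ℝ)
      = ssq773 (g : Matrix (Fin 2) (Fin 2) ℝ) := by
  obtain ⟨h11, h01, hsq⟩ := so2_form773 k hk
  unfold ssq773
  simp only [mul_entry773, h11, h01]
  linear_combination ((g : Matrix (Fin 2) (Fin 2) ℝ) 0 0 ^ 2
    + (g : Matrix (Fin 2) (Fin 2) ℝ) 0 1 ^ 2 + (g : Matrix (Fin 2) (Fin 2) ℝ) 1 0 ^ 2
    + (g : Matrix (Fin 2) (Fin 2) ℝ) 1 1 ^ 2) * hsq

theorem rhoR_so2_mul773 (k g : GL (Fin 2) ℝ) (hk : InSO2 k) : rhoR (k * g) = rhoR g := by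
  rw [rhoR_eq773, rhoR_eq773, ssq_so2_mul773 k g hk, det_so2_mul773 k g hk]

theorem rhoR_mul_so2_773 (k g : GL (Fin 2) ℝ) (hk : InSO2 k) : rhoR (g * k) = rhoR g := by
  rw [rhoR_eq773, rhoR_eq773, ssq_mul_so2_773 k g hk, det_mul_so2_773 k g hk]

theorem holPart_so2_mul773 (k g : GL (Fin 2) ℝ) (hk : InSO2 k) :
    holPart (k * g) = holPart k * holPart g := by
  obtain ⟨h11, h01, -⟩ := so2_form773 k hk
  unfold holPart
  simp only [mul_entry773, h11, h01]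
  apply Complex.ext
  · simp
    ring
  · simp
    ring

theorem holPart_mul_so2_773 (k g : GL (Fin 2) ℝ) (hk : InSO2 k) :
    holPart (g * k) = holPart k * holPart g := by
  obtain ⟨h11, h01, -⟩ := so2_form773 k hk
  unfold holPart
  simp only [mul_entry773, h11, h01]
  apply Complex.ext
  · simp
    ring
  · simp
    ring

theorem holPart_so2_conj773 (k : GL (Fin 2) ℝ) (hk : InSO2 k) :
    holPart k * (starRingEnd ℂ) (holPart k) = 1 := by
  obtain ⟨h11, h01, hsq⟩ := so2_form773 k hk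
  rw [Complex.mul_conj]
  unfold holPart
  rw [h11, h01]
  rw [Complex.normSq_apply]
  simp
  norm_cast
  linear_combination hsq

theorem holPart_so2_ne_zero773 (k : GL (Fin 2) ℝ) (hk : InSO2 k) : holPart k ≠ 0 := by
  intro h
  have := holPart_so2_conj773 k hk
  rw [h, zero_mul] at this
  exact zero_ne_one this

theorem conj_holPart_so2_773 (k : GL (Fin 2) ℝ) (hk : InSO2 k) :
    (starRingEnd ℂ) (holPart k) = (holPart k)⁻¹ :=
  eq_inv_of_mul_eq_one_right (holPart_so2_conj773 k hk)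

/-! ## 2. Continuity, the function -/

theorem continuous_entry773 (i j : Fin 2) :
    Continuous fun g : GL (Fin 2) ℝ => (g : Matrix (Fin 2) (Fin 2) ℝ) i j :=
  (Units.continuous_val (M := Matrix (Fin 2) (Fin 2) ℝ)).matrix_elem i j

theorem continuous_det773 :
    Continuous fun g : GL (Fin 2) ℝ => (g : Matrix (Fin 2) (Fin 2) ℝ).det := by
  have : (fun g : GL (Fin 2) ℝ => (g : Matrix (Fin 2) (Fin 2) ℝ).det)
      = fun g : GL (Fin 2) ℝ =>
        (g : Matrix (Fin 2) (Fin 2) ℝ) 0 0 * (g : Matrix (Fin 2) (Fin 2) ℝ) 1 1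
          - (g : Matrix (Fin 2) (Fin 2) ℝ) 0 1 * (g : Matrix (Fin 2) (Fin 2) ℝ) 1 0 := by
    funext g
    rw [Matrix.det_fin_two]
  rw [this]
  exact ((continuous_entry773 0 0).mul (continuous_entry773 1 1)).sub
    ((continuous_entry773 0 1).mul (continuous_entry773 1 0))

theorem continuous_ssq773 :
    Continuous fun g : GL (Fin 2) ℝ => ssq773 (g : Matrix (Fin 2) (Fin 2) ℝ) := by
  unfold ssq773
  exact ((((continuous_entry773 0 0).pow 2).add ((continuous_entry773 0 1).pow 2)).add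
    ((continuous_entry773 1 0).pow 2)).add ((continuous_entry773 1 1).pow 2)

theorem continuous_rhoR773 : Continuous rhoR := by
  have : rhoR = fun g : GL (Fin 2) ℝ =>
      ssq773 (g : Matrix (Fin 2) (Fin 2) ℝ) / (2 * |(g : Matrix (Fin 2) (Fin 2) ℝ).det|) :=
    funext rhoR_eq773
  rw [this]
  refine continuous_ssq773.div (continuous_const.mul continuous_det773.abs) fun g => ?_
  have := abs_pos.mpr (det_ne_zero773 g)
  positivity

/-- The coordinates `(ρ, log det)`. -/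
def coord773 (g : GL (Fin 2) ℝ) : ℝ × ℝ :=
  (rhoR g, Real.log (g : Matrix (Fin 2) (Fin 2) ℝ).det)

theorem continuous_coord773 : Continuous coord773 :=
  continuous_rhoR773.prodMk (continuous_det773.log det_ne_zero773)

theorem coord_mem773 (g : GL (Fin 2) ℝ) : coord773 g ∈ hp984 :=
  ⟨one_le_rhoR773 g, mem_univ _⟩

/-- THE TEST FUNCTION `P(g) H(ρ(g), log det g)` on `det > 0`, `0` on `det < 0`. -/
def abelF773 (P : GL (Fin 2) ℝ → ℂ) (H : ℝ × ℝ → ℂ) (g : GL (Fin 2) ℝ) : ℂ :=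
  if 0 < (g : Matrix (Fin 2) (Fin 2) ℝ).det then P g * H (coord773 g) else 0

theorem abelF_pos773 (P : GL (Fin 2) ℝ → ℂ) (H : ℝ × ℝ → ℂ) (g : GL (Fin 2) ℝ)
    (h : abelF773 P H g ≠ 0) : 0 < (g : Matrix (Fin 2) (Fin 2) ℝ).det := by
  by_contra hn
  exact h (by simp only [abelF773, if_neg hn])

theorem abelF_continuous773 {P : GL (Fin 2) ℝ → ℂ} {H : ℝ × ℝ → ℂ} (hP : Continuous P)
    (hH : ContinuousOn H hp984) : Continuous (abelF773 P H) := by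
  rw [continuous_iff_continuousAt]
  intro g
  rcases lt_or_gt_of_ne (det_ne_zero773 g) with h | h
  · have hopen : IsOpen {y : GL (Fin 2) ℝ | (y : Matrix (Fin 2) (Fin 2) ℝ).det < 0} :=
      isOpen_lt continuous_det773 continuous_const
    have hev : abelF773 P H =ᶠ[𝓝 g] fun _ => (0 : ℂ) := by
      filter_upwards [hopen.mem_nhds h] with y hy
      have hy' : ¬ 0 < (y : Matrix (Fin 2) (Fin 2) ℝ).det := not_lt.mpr (le_of_lt hy)
      simp only [abelF773, if_neg hy']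
    exact continuousAt_const.congr hev.symm
  · have hopen : IsOpen {y : GL (Fin 2) ℝ | 0 < (y : Matrix (Fin 2) (Fin 2) ℝ).det} :=
      isOpen_lt continuous_const continuous_det773
    have hev : abelF773 P H =ᶠ[𝓝 g] fun y => P y * H (coord773 y) := by
      filter_upwards [hopen.mem_nhds h] with y hy
      have hy' : 0 < (y : Matrix (Fin 2) (Fin 2) ℝ).det := hy
      simp only [abelF773, if_pos hy']
    have hc : Continuous fun y => P y * H (coord773 y) :=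
      hP.mul (hH.comp_continuous continuous_coord773 coord_mem773)
    exact hc.continuousAt.congr hev.symm

theorem abelF_left773 {P : GL (Fin 2) ℝ → ℂ} {H : ℝ × ℝ → ℂ} {n : ℤ}
    (hPl : ∀ k g : GL (Fin 2) ℝ, InSO2 k → P (k * g) = (wtChar n k)⁻¹ * P g)
    (k g : GL (Fin 2) ℝ) (hk : InSO2 k) :
    abelF773 P H (k * g) = (wtChar n k)⁻¹ * abelF773 P H g := by
  unfold abelF773 coord773
  rw [det_so2_mul773 k g hk, rhoR_so2_mul773 k g hk]
  split_ifs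
  · rw [hPl k g hk]
    ring
  · simp

theorem abelF_right773 {P : GL (Fin 2) ℝ → ℂ} {H : ℝ × ℝ → ℂ} {n : ℤ}
    (hPr : ∀ k g : GL (Fin 2) ℝ, InSO2 k → P (g * k) = (wtChar n k)⁻¹ * P g)
    (k g : GL (Fin 2) ℝ) (hk : InSO2 k) :
    abelF773 P H (g * k) = (wtChar n k)⁻¹ * abelF773 P H g := by
  unfold abelF773 coord773
  rw [det_mul_so2_773 k g hk, rhoR_mul_so2_773 k g hk]
  split_ifs
  · rw [hPr k g hk]
    ring
  · simp

/-! ## 3. Smoothness -/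

theorem abelF_smooth773 {P : GL (Fin 2) ℝ → ℂ} {H : ℝ × ℝ → ℂ}
    (hPs : ∀ (m : ℕ) (h : (Fin m → ℝ) → GL (Fin 2) ℝ),
      (∀ i j : Fin 2, ContDiff ℝ ∞
        (fun t => ((h t : GL (Fin 2) ℝ) : Matrix (Fin 2) (Fin 2) ℝ) i j)) →
      ContDiff ℝ ∞ (fun t => P (h t)))
    (hH : ContDiffOn ℝ ∞ H hp984) (m : ℕ) (h : (Fin m → ℝ) → GL (Fin 2) ℝ)
    (hh : ∀ i j : Fin 2, ContDiff ℝ ∞
      (fun t => ((h t : GL (Fin 2) ℝ) : Matrix (Fin 2) (Fin 2) ℝ) i j))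
    (g : GL (Fin 2) ℝ) : ContDiff ℝ ∞ (fun t => abelF773 P H (g * h t)) := by
  have hgh : ∀ i j : Fin 2, ContDiff ℝ ∞
      (fun t => ((g * h t : GL (Fin 2) ℝ) : Matrix (Fin 2) (Fin 2) ℝ) i j) := by
    intro i j
    simp only [mul_entry773]
    exact (contDiff_const.mul (hh 0 j)).add (contDiff_const.mul (hh 1 j))
  have hdet : ContDiff ℝ ∞
      (fun t => ((g * h t : GL (Fin 2) ℝ) : Matrix (Fin 2) (Fin 2) ℝ).det) := by
    simp only [Matrix.det_fin_two]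
    exact ((hgh 0 0).mul (hgh 1 1)).sub ((hgh 0 1).mul (hgh 1 0))
  have hssq : ContDiff ℝ ∞
      (fun t => ssq773 ((g * h t : GL (Fin 2) ℝ) : Matrix (Fin 2) (Fin 2) ℝ)) := by
    unfold ssq773
    exact ((((hgh 0 0).pow 2).add ((hgh 0 1).pow 2)).add ((hgh 1 0).pow 2)).add
      ((hgh 1 1).pow 2)
  rw [contDiff_iff_contDiffAt]
  intro t₀
  rcases lt_or_gt_of_ne (det_ne_zero773 (g * h t₀)) with hneg | hpos
  · have hopen : IsOpen {t : Fin m → ℝ |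
        ((g * h t : GL (Fin 2) ℝ) : Matrix (Fin 2) (Fin 2) ℝ).det < 0} :=
      isOpen_lt hdet.continuous continuous_const
    have hev : (fun t => abelF773 P H (g * h t)) =ᶠ[𝓝 t₀] fun _ => (0 : ℂ) := by
      filter_upwards [hopen.mem_nhds hneg] with t ht
      have ht' : ¬ 0 < ((g * h t : GL (Fin 2) ℝ) : Matrix (Fin 2) (Fin 2) ℝ).det :=
        not_lt.mpr (le_of_lt ht)
      simp only [abelF773, if_neg ht']
    exact contDiffAt_const.congr_of_eventuallyEq hev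
  · have hopen : IsOpen {t : Fin m → ℝ |
        0 < ((g * h t : GL (Fin 2) ℝ) : Matrix (Fin 2) (Fin 2) ℝ).det} :=
      isOpen_lt continuous_const hdet.continuous
    have hcoord : ContDiffOn ℝ ∞
        (fun t => ((ssq773 ((g * h t : GL (Fin 2) ℝ) : Matrix (Fin 2) (Fin 2) ℝ)
            / (2 * ((g * h t : GL (Fin 2) ℝ) : Matrix (Fin 2) (Fin 2) ℝ).det),
          Real.log ((g * h t : GL (Fin 2) ℝ) : Matrix (Fin 2) (Fin 2) ℝ).det) : ℝ × ℝ))
        {t : Fin m → ℝ | 0 < ((g * h t : GL (Fin 2) ℝ) : Matrix (Fin 2) (Fin 2) ℝ).det} := by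
      refine ContDiffOn.prodMk ?_ ?_
      · refine hssq.contDiffOn.div (contDiff_const.mul hdet).contDiffOn fun t ht => ?_
        have ht' : 0 < ((g * h t : GL (Fin 2) ℝ) : Matrix (Fin 2) (Fin 2) ℝ).det := ht
        positivity
      · exact hdet.contDiffOn.log fun t ht => ne_of_gt ht
    have hcoordeq : ∀ t : Fin m → ℝ,
        0 < ((g * h t : GL (Fin 2) ℝ) : Matrix (Fin 2) (Fin 2) ℝ).det →
        ((ssq773 ((g * h t : GL (Fin 2) ℝ) : Matrix (Fin 2) (Fin 2) ℝ)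
            / (2 * ((g * h t : GL (Fin 2) ℝ) : Matrix (Fin 2) (Fin 2) ℝ).det),
          Real.log ((g * h t : GL (Fin 2) ℝ) : Matrix (Fin 2) (Fin 2) ℝ).det) : ℝ × ℝ)
          = coord773 (g * h t) := by
      intro t ht
      simp only [coord773, rhoR_eq773, abs_of_pos ht]
    have hcomp : ContDiffOn ℝ ∞
        (fun t => H ((ssq773 ((g * h t : GL (Fin 2) ℝ) : Matrix (Fin 2) (Fin 2) ℝ)
            / (2 * ((g * h t : GL (Fin 2) ℝ) : Matrix (Fin 2) (Fin 2) ℝ).det),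
          Real.log ((g * h t : GL (Fin 2) ℝ) : Matrix (Fin 2) (Fin 2) ℝ).det) : ℝ × ℝ))
        {t : Fin m → ℝ | 0 < ((g * h t : GL (Fin 2) ℝ) : Matrix (Fin 2) (Fin 2) ℝ).det} :=
      hH.comp hcoord fun t ht => by
        show _ ∈ hp984
        rw [hcoordeq t ht]
        exact coord_mem773 _
    have hF := (hPs m (fun t => g * h t) hgh).contDiffOn.mul hcomp
    have hev : (fun t => abelF773 P H (g * h t)) =ᶠ[𝓝 t₀]
        fun t => P (g * h t)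
          * H ((ssq773 ((g * h t : GL (Fin 2) ℝ) : Matrix (Fin 2) (Fin 2) ℝ)
            / (2 * ((g * h t : GL (Fin 2) ℝ) : Matrix (Fin 2) (Fin 2) ℝ).det),
          Real.log ((g * h t : GL (Fin 2) ℝ) : Matrix (Fin 2) (Fin 2) ℝ).det) : ℝ × ℝ) := by
      filter_upwards [hopen.mem_nhds hpos] with t ht
      have ht' : 0 < ((g * h t : GL (Fin 2) ℝ) : Matrix (Fin 2) (Fin 2) ℝ).det := ht
      simp only [abelF773, if_pos ht', hcoordeq t ht']
    exact (hF.contDiffAt (hopen.mem_nhds hpos)).congr_of_eventuallyEq hev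

/-! ## 4. Compact support -/

theorem isCompact_box773 (C : ℝ) :
    IsCompact {A : Matrix (Fin 2) (Fin 2) ℝ | ∀ i j, |A i j| ≤ C} := by
  have h : IsCompact (Set.pi Set.univ fun _ : Fin 2 => Set.pi Set.univ fun _ : Fin 2 =>
      Metric.closedBall (0 : ℝ) C) :=
    isCompact_univ_pi fun _ => isCompact_univ_pi fun _ => isCompact_closedBall 0 C
  have e : {A : Matrix (Fin 2) (Fin 2) ℝ | ∀ i j, |A i j| ≤ C}
      = (Set.pi Set.univ fun _ : Fin 2 => Set.pi Set.univ fun _ : Fin 2 =>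
          Metric.closedBall (0 : ℝ) C) := by
    ext A
    constructor
    · intro hA i _ j _
      have := hA i j
      simpa [Real.norm_eq_abs] using this
    · intro hA i j
      have := hA i (Set.mem_univ i) j (Set.mem_univ j)
      simpa [Real.norm_eq_abs] using this
  rw [e]
  exact h

/-- A closed subset of `GL₂(ℝ)` on which the entries of `h` and `h⁻¹` are bounded is compact. -/
theorem isCompact_of_bounded773 (K : Set (GL (Fin 2) ℝ)) (hK : IsClosed K) (C : ℝ)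
    (h1 : ∀ h ∈ K, ∀ i j, |(h : Matrix (Fin 2) (Fin 2) ℝ) i j| ≤ C)
    (h2 : ∀ h ∈ K, ∀ i j, |((h⁻¹ : GL (Fin 2) ℝ) : Matrix (Fin 2) (Fin 2) ℝ) i j| ≤ C) :
    IsCompact K := by
  have hemb := Units.isClosedEmbedding_embedProduct (α := Matrix (Fin 2) (Fin 2) ℝ)
  rw [hemb.isEmbedding.isCompact_iff]
  have hbox : IsCompact (({A : Matrix (Fin 2) (Fin 2) ℝ | ∀ i j, |A i j| ≤ C}) ×ˢ
      (MulOpposite.op '' {A : Matrix (Fin 2) (Fin 2) ℝ | ∀ i j, |A i j| ≤ C})) :=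
    (isCompact_box773 C).prod ((isCompact_box773 C).image MulOpposite.continuous_op)
  refine IsCompact.of_isClosed_subset hbox (hemb.isClosedMap _ hK) ?_
  rintro _ ⟨h, hh, rfl⟩
  refine ⟨h1 h hh, ⟨((h⁻¹ : GL (Fin 2) ℝ) : Matrix (Fin 2) (Fin 2) ℝ), h2 h hh, rfl⟩⟩

theorem sq_entry_le_ssq773 (A : Matrix (Fin 2) (Fin 2) ℝ) (i j : Fin 2) :
    A i j ^ 2 ≤ ssq773 A := by
  unfold ssq773
  fin_cases i <;> fin_cases j <;> simp <;>
    nlinarith [sq_nonneg (A 0 0), sq_nonneg (A 0 1), sq_nonneg (A 1 0), sq_nonneg (A 1 1)]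

theorem abs_inv_entry773 (h : GL (Fin 2) ℝ) (i j : Fin 2) :
    ∃ i' j' : Fin 2, |((h⁻¹ : GL (Fin 2) ℝ) : Matrix (Fin 2) (Fin 2) ℝ) i j|
      = |(h : Matrix (Fin 2) (Fin 2) ℝ).det|⁻¹ * |(h : Matrix (Fin 2) (Fin 2) ℝ) i' j'| := by
  rw [Matrix.coe_units_inv, Matrix.inv_def, Matrix.adjugate_fin_two, Ring.inverse_eq_inv']
  fin_cases i <;> fin_cases j
  · exact ⟨1, 1, by simp [abs_mul, abs_inv]⟩
  · exact ⟨0, 1, by simp [abs_mul, abs_inv]⟩
  · exact ⟨1, 0, by simp [abs_mul, abs_inv]⟩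
  · exact ⟨0, 0, by simp [abs_mul, abs_inv]⟩

/-- The region `e^{-a} ≤ det ≤ e^a`, `tr(gᵀ g) ≤ B`. -/
def region773 (a B : ℝ) : Set (GL (Fin 2) ℝ) :=
  {g | Real.exp (-a) ≤ (g : Matrix (Fin 2) (Fin 2) ℝ).det ∧
    (g : Matrix (Fin 2) (Fin 2) ℝ).det ≤ Real.exp a ∧
    ssq773 (g : Matrix (Fin 2) (Fin 2) ℝ) ≤ B}

theorem isCompact_region773 (a B : ℝ) : IsCompact (region773 a B) := by
  have hcl : IsClosed (region773 a B) :=
    (isClosed_le continuous_const continuous_det773).inter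
      ((isClosed_le continuous_det773 continuous_const).inter
        (isClosed_le continuous_ssq773 continuous_const))
  have hent : ∀ g ∈ region773 a B, ∀ i j : Fin 2,
      |(g : Matrix (Fin 2) (Fin 2) ℝ) i j| ≤ |B| + 1 := by
    intro g hg i j
    have h3 : (g : Matrix (Fin 2) (Fin 2) ℝ) i j ^ 2 ≤ B :=
      le_trans (sq_entry_le_ssq773 _ i j) hg.2.2
    nlinarith [abs_nonneg ((g : Matrix (Fin 2) (Fin 2) ℝ) i j),
      sq_abs ((g : Matrix (Fin 2) (Fin 2) ℝ) i j), le_abs_self B, abs_nonneg B]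
  have hinv : ∀ g ∈ region773 a B, ∀ i j : Fin 2,
      |((g⁻¹ : GL (Fin 2) ℝ) : Matrix (Fin 2) (Fin 2) ℝ) i j| ≤ Real.exp a * (|B| + 1) := by
    intro g hg i j
    obtain ⟨i', j', h⟩ := abs_inv_entry773 g i j
    rw [h]
    have hpos : 0 < (g : Matrix (Fin 2) (Fin 2) ℝ).det := lt_of_lt_of_le (Real.exp_pos _) hg.1
    have hd : |(g : Matrix (Fin 2) (Fin 2) ℝ).det|⁻¹ ≤ Real.exp a := by
      rw [abs_of_pos hpos, inv_le_comm₀ hpos (Real.exp_pos _), ← Real.exp_neg]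
      exact hg.1
    exact mul_le_mul hd (hent g hg i' j') (abs_nonneg _) (Real.exp_pos _).le
  have hB : 0 ≤ |B| + 1 := by positivity
  have hE : 0 ≤ Real.exp a * (|B| + 1) := by positivity
  exact isCompact_of_bounded773 _ hcl (Real.exp a * (|B| + 1) + (|B| + 1))
    (fun g hg i j => le_trans (hent g hg i j) (by linarith))
    (fun g hg i j => le_trans (hinv g hg i j) (by linarith))

theorem abelF_supp773 (P : GL (Fin 2) ℝ → ℂ) {H : ℝ × ℝ → ℂ} {Y C : ℝ}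
    (hY : ∀ y c : ℝ, Y ≤ y → H (y, c) = 0)
    (hC : ∀ y c : ℝ, 1 ≤ y → C ≤ |c| → H (y, c) = 0) :
    HasCompactSupport (abelF773 P H) := by
  apply HasCompactSupport.intro (isCompact_region773 C (Y * (2 * Real.exp C)))
  intro g hg
  by_contra hne
  apply hg
  have hpos := abelF_pos773 P H g hne
  have hH : H (coord773 g) ≠ 0 := by
    intro h0
    apply hne
    simp only [abelF773, if_pos hpos, h0, mul_zero]
  have h1 : rhoR g < Y := by
    by_contra hcon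
    exact hH (hY _ _ (not_lt.mp hcon))
  have h2 : |Real.log (g : Matrix (Fin 2) (Fin 2) ℝ).det| < C := by
    by_contra hcon
    exact hH (hC _ _ (one_le_rhoR773 g) (not_lt.mp hcon))
  have h2' := abs_lt.mp h2
  have hdle : (g : Matrix (Fin 2) (Fin 2) ℝ).det ≤ Real.exp C := by
    calc (g : Matrix (Fin 2) (Fin 2) ℝ).det
        = Real.exp (Real.log (g : Matrix (Fin 2) (Fin 2) ℝ).det) := (Real.exp_log hpos).symm
      _ ≤ Real.exp C := Real.exp_le_exp.mpr (le_of_lt h2'.2)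
  refine ⟨?_, hdle, ?_⟩
  · calc Real.exp (-C) ≤ Real.exp (Real.log (g : Matrix (Fin 2) (Fin 2) ℝ).det) :=
          Real.exp_le_exp.mpr (le_of_lt h2'.1)
      _ = (g : Matrix (Fin 2) (Fin 2) ℝ).det := Real.exp_log hpos
  · have hr := rhoR_eq773 g
    rw [abs_of_pos hpos] at hr
    have hs : ssq773 (g : Matrix (Fin 2) (Fin 2) ℝ)
        = rhoR g * (2 * (g : Matrix (Fin 2) (Fin 2) ℝ).det) := by
      rw [hr]
      field_simp
    rw [hs]
    have hY0 : 0 ≤ Y := by linarith [one_le_rhoR773 g]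
    have hr0 : 0 ≤ rhoR g := by linarith [one_le_rhoR773 g]
    exact mul_le_mul (le_of_lt h1) (by linarith) (by positivity) hY0

/-! ## 5. The `N`-integral -/

theorem upper_val773 (c₁ c₂ : ℝˣ) (x : ℝ) :
    ((upperGL c₁ c₂ x : GL (Fin 2) ℝ) : Matrix (Fin 2) (Fin 2) ℝ)
      = !![(c₁ : ℝ), x; 0, (c₂ : ℝ)] := rfl

theorem upper_det773 (c₁ c₂ : ℝˣ) (x : ℝ) :
    ((upperGL c₁ c₂ x : GL (Fin 2) ℝ) : Matrix (Fin 2) (Fin 2) ℝ).det
      = (c₁ : ℝ) * (c₂ : ℝ) := by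
  rw [upper_val773, Matrix.det_fin_two_of]
  ring

theorem upper_ssq773 (c₁ c₂ : ℝˣ) (x : ℝ) :
    ssq773 ((upperGL c₁ c₂ x : GL (Fin 2) ℝ) : Matrix (Fin 2) (Fin 2) ℝ)
      = (c₁ : ℝ) ^ 2 + x ^ 2 + (c₂ : ℝ) ^ 2 := by
  rw [upper_val773]
  simp [ssq773]

theorem upper_coord773 (c₁ c₂ : ℝˣ) (hc₁ : 0 < (c₁ : ℝ)) (hc₂ : 0 < (c₂ : ℝ)) (x : ℝ) :
    coord773 (upperGL c₁ c₂ x)
      = (Real.cosh (Real.log (c₁ : ℝ) - Real.log (c₂ : ℝ))
          + (x / Real.sqrt (2 * ((c₁ : ℝ) * (c₂ : ℝ)))) ^ 2,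
        Real.log (c₁ : ℝ) + Real.log (c₂ : ℝ)) := by
  unfold coord773
  rw [rhoR_eq773, upper_det773, upper_ssq773, abs_of_pos (mul_pos hc₁ hc₂),
    Real.log_mul hc₁.ne' hc₂.ne']
  congr 1
  rw [Real.cosh_eq, neg_sub, Real.exp_sub, Real.exp_sub, Real.exp_log hc₁, Real.exp_log hc₂,
    div_pow, Real.sq_sqrt (by positivity)]
  field_simp
  ring

theorem abelF_upper773 (P : GL (Fin 2) ℝ → ℂ) (H : ℝ × ℝ → ℂ) (c₁ c₂ : ℝˣ)
    (hc₁ : 0 < (c₁ : ℝ)) (hc₂ : 0 < (c₂ : ℝ)) (x : ℝ) :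
    abelF773 P H (upperGL c₁ c₂ x)
      = P (upperGL c₁ c₂ x) * H (Real.cosh (Real.log (c₁ : ℝ) - Real.log (c₂ : ℝ))
          + (x / Real.sqrt (2 * ((c₁ : ℝ) * (c₂ : ℝ)))) ^ 2,
        Real.log (c₁ : ℝ) + Real.log (c₂ : ℝ)) := by
  have hd : 0 < ((upperGL c₁ c₂ x : GL (Fin 2) ℝ) : Matrix (Fin 2) (Fin 2) ℝ).det := by
    rw [upper_det773]
    exact mul_pos hc₁ hc₂
  simp only [abelF773, if_pos hd, upper_coord773 c₁ c₂ hc₁ hc₂ x]

theorem continuous_profile773 {H : ℝ × ℝ → ℂ} (hH : ContinuousOn H hp984) (y₀ c : ℝ)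
    (hy₀ : 1 ≤ y₀) : Continuous fun s : ℝ => H (y₀ + s ^ 2, c) := by
  have hmap : Continuous fun s : ℝ => ((y₀ + s ^ 2, c) : ℝ × ℝ) := by fun_prop
  refine hH.comp_continuous hmap fun s => ⟨?_, mem_univ _⟩
  show (1 : ℝ) ≤ y₀ + s ^ 2
  nlinarith [sq_nonneg s]

theorem profile_zero773 {H : ℝ × ℝ → ℂ} {Y : ℝ} (hY : ∀ y c : ℝ, Y ≤ y → H (y, c) = 0)
    (y₀ c : ℝ) (hy₀ : 1 ≤ y₀) (s : ℝ) (hs : s ∉ Icc (-(|Y| + 1)) (|Y| + 1)) :
    H (y₀ + s ^ 2, c) = 0 := by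
  apply hY
  have h1 : |Y| + 1 < |s| := by
    by_contra hcon
    exact hs (abs_le.mp (not_lt.mp hcon))
  have h2 : |Y| + 1 < s ^ 2 := by
    rw [← sq_abs]
    nlinarith [abs_nonneg Y]
  linarith [le_abs_self Y]

theorem integrable_profile773 {H : ℝ × ℝ → ℂ} (hH : ContinuousOn H hp984) {Y : ℝ}
    (hY : ∀ y c : ℝ, Y ≤ y → H (y, c) = 0) (y₀ c : ℝ) (hy₀ : 1 ≤ y₀) :
    Integrable (fun s : ℝ => H (y₀ + s ^ 2, c)) ∧
      Integrable (fun s : ℝ => (s : ℂ) * H (y₀ + s ^ 2, c)) := by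
  constructor
  · apply (continuous_profile773 hH y₀ c hy₀).integrable_of_hasCompactSupport
    apply HasCompactSupport.intro (K := Icc (-(|Y| + 1)) (|Y| + 1)) isCompact_Icc
    intro s hs
    exact profile_zero773 hY y₀ c hy₀ s hs
  · have hc : Continuous fun s : ℝ => (s : ℂ) * H (y₀ + s ^ 2, c) :=
      Complex.continuous_ofReal.mul (continuous_profile773 hH y₀ c hy₀)
    apply hc.integrable_of_hasCompactSupport
    apply HasCompactSupport.intro (K := Icc (-(|Y| + 1)) (|Y| + 1)) isCompact_Icc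
    intro s hs
    show (s : ℂ) * H (y₀ + s ^ 2, c) = 0
    rw [profile_zero773 hY y₀ c hy₀ s hs, mul_zero]

theorem integral_odd_profile773 (H : ℝ × ℝ → ℂ) (y₀ c : ℝ) :
    ∫ s : ℝ, (s : ℂ) * H (y₀ + s ^ 2, c) = 0 := by
  have h := integral_neg_eq_self (fun s : ℝ => (s : ℂ) * H (y₀ + s ^ 2, c)) volume
  simp only [neg_sq, Complex.ofReal_neg, neg_mul] at h
  rw [integral_neg] at h
  have h2 : (2 : ℂ) * ∫ s : ℝ, (s : ℂ) * H (y₀ + s ^ 2, c) = 0 := by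
    linear_combination -h
  exact (mul_eq_zero.mp h2).resolve_left two_ne_zero

/-- The `N`-integral of `(A₀ + B₀ x) H(y₀ + (x/b)², c)`. -/
theorem abelF_integral773 {H : ℝ × ℝ → ℂ} (hH : ContinuousOn H hp984) {Y : ℝ}
    (hY : ∀ y c : ℝ, Y ≤ y → H (y, c) = 0) (A₀ B₀ : ℂ) (b : ℝ) (hb : 0 < b) (y₀ c : ℝ)
    (hy₀ : 1 ≤ y₀) :
    ∫ x : ℝ, (A₀ + B₀ * (x : ℂ)) * H (y₀ + (x / b) ^ 2, c)
      = A₀ * (b : ℂ) * ∫ s : ℝ, H (y₀ + s ^ 2, c) := by
  obtain ⟨hi1, hi2⟩ := integrable_profile773 hH hY y₀ c hy₀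
  have hbC : (b : ℂ) ≠ 0 := Complex.ofReal_ne_zero.mpr hb.ne'
  have e : (fun x : ℝ => (A₀ + B₀ * (x : ℂ)) * H (y₀ + (x / b) ^ 2, c))
      = fun x : ℝ => (fun s : ℝ => A₀ * H (y₀ + s ^ 2, c)
          + (B₀ * (b : ℂ)) * ((s : ℂ) * H (y₀ + s ^ 2, c))) (x / b) := by
    funext x
    simp only
    push_cast
    field_simp
  rw [e, Measure.integral_comp_div (fun s : ℝ => A₀ * H (y₀ + s ^ 2, c)
          + (B₀ * (b : ℂ)) * ((s : ℂ) * H (y₀ + s ^ 2, c))) b,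
    integral_add (hi1.const_mul _) (hi2.const_mul _), integral_const_mul, integral_const_mul,
    integral_odd_profile773, abs_of_pos hb, mul_zero, add_zero, Complex.real_smul]
  ring

end Fermat.Agent.LT.T3.H773

end
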