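import Fermat.Agent.LT.T3.R.Spec
import Fermat.Agent.LT.T3.H773.AbelGrp

/-!
# Row LT, tower T3, station T3.18R, leaf R.1 `R.AbelRealC` (helper773, SPARE of registry 2298)

OFF-MAIN.  `abelRealC773 : R.AbelRealC`: every symmetric `β ∈ C_c^∞(ℝ²)` is the `N`-integral of a
test function of weight `n ∈ {0, 1, -1}` on `GL₂(ℝ)`.

`F(g) = P(g) H(ρ(g), log det g)` on `det > 0` (`abelF773`), `P = 1`, `conj (holPart)`, `holPart`,
`H` the Abel inverse (`abelCore773`) of `E(u, c) = w(u, c) β((c + u)/2, (c - u)/2)`,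
`w = 1/√2` (weight `0`), `w = 1 / (√2 e^{c/2} cosh (u/2))` (weights `±1`).
-/

set_option autoImplicit false

noncomputable section

namespace Fermat.Agent.LT.T3.H773

open Set Filter Topology MeasureTheory
open scoped ContDiff Matrix
open Fermat.Agent.LT.T3.H984
open Fermat.Agent.LT.T6 (InSO2 holPart wtChar IsArchTestR rhoR)
open Fermat.Agent.LT.T3.AS (upperGL IsSymBump)

/-! ## 6. The phases -/

/-- The conjugate of the holomorphic part. -/
def holConj773 (y : GL (Fin 2) ℝ) : ℂ := (starRingEnd ℂ) (holPart y)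

theorem holPart_family773 (m : ℕ) (h : (Fin m → ℝ) → GL (Fin 2) ℝ)
    (hh : ∀ i j : Fin 2, ContDiff ℝ ∞
      (fun t => ((h t : GL (Fin 2) ℝ) : Matrix (Fin 2) (Fin 2) ℝ) i j)) :
    ContDiff ℝ ∞ (fun t => holPart (h t)) := by
  unfold holPart
  have h1 : ContDiff ℝ ∞ (fun t => ((((h t : GL (Fin 2) ℝ) : Matrix (Fin 2) (Fin 2) ℝ) 0 0
      + ((h t : GL (Fin 2) ℝ) : Matrix (Fin 2) (Fin 2) ℝ) 1 1 : ℝ) : ℂ)) :=
    Complex.ofRealCLM.contDiff.comp ((hh 0 0).add (hh 1 1))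
  have h2 : ContDiff ℝ ∞ (fun t => ((((h t : GL (Fin 2) ℝ) : Matrix (Fin 2) (Fin 2) ℝ) 1 0
      - ((h t : GL (Fin 2) ℝ) : Matrix (Fin 2) (Fin 2) ℝ) 0 1 : ℝ) : ℂ)) :=
    Complex.ofRealCLM.contDiff.comp ((hh 1 0).sub (hh 0 1))
  exact (h1.add (h2.mul contDiff_const)).div_const 2

theorem holConj_family773 (m : ℕ) (h : (Fin m → ℝ) → GL (Fin 2) ℝ)
    (hh : ∀ i j : Fin 2, ContDiff ℝ ∞
      (fun t => ((h t : GL (Fin 2) ℝ) : Matrix (Fin 2) (Fin 2) ℝ) i j)) :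
    ContDiff ℝ ∞ (fun t => holConj773 (h t)) := by
  show ContDiff ℝ ∞ (fun t => Complex.conjCLE (holPart (h t)))
  exact Complex.conjCLE.contDiff.comp (holPart_family773 m h hh)

theorem continuous_holPart773 : Continuous holPart := by
  have e : holPart = fun y : GL (Fin 2) ℝ =>
      ((((y : Matrix (Fin 2) (Fin 2) ℝ) 0 0 + (y : Matrix (Fin 2) (Fin 2) ℝ) 1 1 : ℝ) : ℂ) +
        (((y : Matrix (Fin 2) (Fin 2) ℝ) 1 0 - (y : Matrix (Fin 2) (Fin 2) ℝ) 0 1 : ℝ) : ℂ) *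
          Complex.I) / 2 := rfl
  rw [e]
  have h1 : Continuous fun y : GL (Fin 2) ℝ =>
      (((y : Matrix (Fin 2) (Fin 2) ℝ) 0 0 + (y : Matrix (Fin 2) (Fin 2) ℝ) 1 1 : ℝ) : ℂ) :=
    Complex.continuous_ofReal.comp ((continuous_entry773 0 0).add (continuous_entry773 1 1))
  have h2 : Continuous fun y : GL (Fin 2) ℝ =>
      (((y : Matrix (Fin 2) (Fin 2) ℝ) 1 0 - (y : Matrix (Fin 2) (Fin 2) ℝ) 0 1 : ℝ) : ℂ) :=
    Complex.continuous_ofReal.comp ((continuous_entry773 1 0).sub (continuous_entry773 0 1))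
  exact (h1.add (h2.mul continuous_const)).div_const 2

theorem continuous_holConj773 : Continuous holConj773 :=
  Complex.continuous_conj.comp continuous_holPart773

theorem holPart_upper773 (c₁ c₂ : ℝˣ) (x : ℝ) :
    holPart (upperGL c₁ c₂ x)
      = ((((c₁ : ℝ) + (c₂ : ℝ)) / 2 : ℝ) : ℂ) + (-(Complex.I / 2)) * (x : ℂ) := by
  unfold holPart
  rw [upper_val773]
  simp
  ring

theorem holConj_upper773 (c₁ c₂ : ℝˣ) (x : ℝ) :
    holConj773 (upperGL c₁ c₂ x)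
      = ((((c₁ : ℝ) + (c₂ : ℝ)) / 2 : ℝ) : ℂ) + (Complex.I / 2) * (x : ℂ) := by
  unfold holConj773
  rw [holPart_upper773]
  simp only [map_add, map_mul, map_neg, map_div₀, Complex.conj_ofReal, Complex.conj_I,
    map_ofNat]
  ring

/-! ## 7. The functions `E` -/

/-- `β((c + u)/2, (c - u)/2)`. -/
def slice773 (β : ℝ × ℝ → ℂ) (p : ℝ × ℝ) : ℂ := β ((p.2 + p.1) / 2, (p.2 - p.1) / 2)

/-- `w(u, c) β((c + u)/2, (c - u)/2)`. -/
def eFn773 (w : ℝ × ℝ → ℝ) (β : ℝ × ℝ → ℂ) (p : ℝ × ℝ) : ℂ := ((w p : ℝ) : ℂ) * slice773 β p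

theorem exists_box773 {β : ℝ × ℝ → ℂ} (hs : HasCompactSupport β) :
    ∃ M : ℝ, 0 ≤ M ∧ ∀ p : ℝ × ℝ, M ≤ |p.1| ∨ M ≤ |p.2| → β p = 0 := by
  obtain ⟨M, hM⟩ := hs.isCompact.isBounded.subset_closedBall (0 : ℝ × ℝ)
  refine ⟨|M| + 1, by positivity, fun p hp => ?_⟩
  by_contra hne
  have hmem : p ∈ tsupport β := subset_tsupport _ (Function.mem_support.mpr hne)
  have h0 := hM hmem
  rw [mem_closedBall_zero_iff, Prod.norm_def] at h0
  have h1 := le_trans (le_max_left _ _) h0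
  have h2 := le_trans (le_max_right _ _) h0
  simp only [Real.norm_eq_abs] at h1 h2
  rcases hp with h | h <;> linarith [le_abs_self M]

theorem eFn_contDiff773 {w : ℝ × ℝ → ℝ} (hw : ContDiff ℝ ∞ w) {β : ℝ × ℝ → ℂ}
    (hβ : IsSymBump β) : ContDiff ℝ ∞ (eFn773 w β) := by
  unfold eFn773 slice773
  have h1 : ContDiff ℝ ∞ (fun p : ℝ × ℝ => ((w p : ℝ) : ℂ)) :=
    Complex.ofRealCLM.contDiff.comp hw
  have h2 : ContDiff ℝ ∞ (fun p : ℝ × ℝ => β ((p.2 + p.1) / 2, (p.2 - p.1) / 2)) :=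
    hβ.1.comp (by fun_prop)
  exact h1.mul h2

theorem eFn_even773 {w : ℝ × ℝ → ℝ} (hwe : ∀ u c : ℝ, w (-u, c) = w (u, c))
    {β : ℝ × ℝ → ℂ} (hβ : IsSymBump β) : IsEv984 (eFn773 w β) := by
  intro u c
  unfold eFn773 slice773
  simp only
  rw [hwe u c, hβ.2.2]
  congr 3
  ring

theorem eFn_box773 (w : ℝ × ℝ → ℝ) {β : ℝ × ℝ → ℂ} {M : ℝ}
    (hM : ∀ p : ℝ × ℝ, M ≤ |p.1| ∨ M ≤ |p.2| → β p = 0) :
    IsBox773 (eFn773 w β) (2 * M) (2 * M) := by
  constructor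
  · intro u c hu
    unfold eFn773 slice773
    simp only
    rw [hM, mul_zero]
    by_contra hcon
    push Not at hcon
    obtain ⟨h1, h2⟩ := hcon
    simp only at h1 h2
    have h3 : |u| ≤ |(c + u) / 2| + |(c - u) / 2| := by
      have : u = (c + u) / 2 - (c - u) / 2 := by ring
      calc |u| = |(c + u) / 2 - (c - u) / 2| := by rw [← this]
        _ ≤ |(c + u) / 2| + |(c - u) / 2| := abs_sub _ _
    linarith
  · intro u c hc
    unfold eFn773 slice773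
    simp only
    rw [hM, mul_zero]
    by_contra hcon
    push Not at hcon
    obtain ⟨h1, h2⟩ := hcon
    simp only at h1 h2
    have h3 : |c| ≤ |(c + u) / 2| + |(c - u) / 2| := by
      have : c = (c + u) / 2 + (c - u) / 2 := by ring
      calc |c| = |(c + u) / 2 + (c - u) / 2| := by rw [← this]
        _ ≤ |(c + u) / 2| + |(c - u) / 2| := abs_add_le _ _
    linarith

/-! ## 8. The assembly -/

/-- The common part of the three weights. -/
theorem abelReal_aux773 (n : ℤ) (P : GL (Fin 2) ℝ → ℂ) (w : ℝ × ℝ → ℝ) (A₀ : ℝ → ℝ → ℝ)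
    (B₀ : ℂ) (hPc : Continuous P)
    (hPs : ∀ (m : ℕ) (h : (Fin m → ℝ) → GL (Fin 2) ℝ),
      (∀ i j : Fin 2, ContDiff ℝ ∞
        (fun t => ((h t : GL (Fin 2) ℝ) : Matrix (Fin 2) (Fin 2) ℝ) i j)) →
      ContDiff ℝ ∞ (fun t => P (h t)))
    (hPl : ∀ k g : GL (Fin 2) ℝ, InSO2 k → P (k * g) = (wtChar n k)⁻¹ * P g)
    (hPr : ∀ k g : GL (Fin 2) ℝ, InSO2 k → P (g * k) = (wtChar n k)⁻¹ * P g)
    (hPu : ∀ (c₁ c₂ : ℝˣ) (x : ℝ),
      P (upperGL c₁ c₂ x) = ((A₀ (c₁ : ℝ) (c₂ : ℝ) : ℝ) : ℂ) + B₀ * (x : ℂ))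
    (hw : ContDiff ℝ ∞ w) (hwe : ∀ u c : ℝ, w (-u, c) = w (u, c))
    (hwA : ∀ c₁ c₂ : ℝ, 0 < c₁ → 0 < c₂ →
      A₀ c₁ c₂ * Real.sqrt (2 * (c₁ * c₂))
        * w (Real.log c₁ - Real.log c₂, Real.log c₁ + Real.log c₂) = Real.sqrt (c₁ * c₂))
    (β : ℝ × ℝ → ℂ) (hβ : IsSymBump β) :
    ∃ F : GL (Fin 2) ℝ → ℂ, IsArchTestR n F ∧ R.HasAbelNR F β := by
  obtain ⟨M, hM0, hM⟩ := exists_box773 hβ.2.1
  have hE : ContDiff ℝ ∞ (eFn773 w β) := eFn_contDiff773 hw hβ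
  have hev : IsEv984 (eFn773 w β) := eFn_even773 hwe hβ
  have hb : IsBox773 (eFn773 w β) (2 * M) (2 * M) := eFn_box773 w hM
  obtain ⟨H, hH, hHY, hHC, hHab⟩ := abelCore773 hE hev hb (by positivity)
  refine ⟨abelF773 P H, ⟨abelF_continuous773 hPc hH.continuousOn, abelF_supp773 P hHY hHC,
    abelF_smooth773 hPs hH, abelF_pos773 P H, abelF_left773 hPl, abelF_right773 hPr⟩, ?_⟩
  intro c₁ c₂ hc₁ hc₂
  simp only [abelF_upper773 P H c₁ c₂ hc₁ hc₂, hPu]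
  have hbpos : 0 < Real.sqrt (2 * ((c₁ : ℝ) * (c₂ : ℝ))) :=
    Real.sqrt_pos.mpr (by positivity)
  rw [abelF_integral773 hH.continuousOn hHY _ B₀ _ hbpos _ _ (Real.one_le_cosh _), hHab]
  have hs : slice773 β (Real.log (c₁ : ℝ) - Real.log (c₂ : ℝ),
      Real.log (c₁ : ℝ) + Real.log (c₂ : ℝ)) = β (Real.log (c₁ : ℝ), Real.log (c₂ : ℝ)) := by
    unfold slice773
    congr 2
    · ring
    · ring
  show _ * _ * (((w _ : ℝ) : ℂ) * slice773 β _) = _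
  rw [hs, ← mul_assoc, ← hwA (c₁ : ℝ) (c₂ : ℝ) hc₁ hc₂]
  push_cast
  ring

theorem wt1_key773 (c₁ c₂ : ℝ) (hc₁ : 0 < c₁) (hc₂ : 0 < c₂) :
    Real.exp ((Real.log c₁ + Real.log c₂) / 2) * Real.cosh ((Real.log c₁ - Real.log c₂) / 2)
      = (c₁ + c₂) / 2 := by
  rw [Real.cosh_eq, mul_div_assoc', mul_add, ← Real.exp_add, ← Real.exp_add]
  have e1 : (Real.log c₁ + Real.log c₂) / 2 + (Real.log c₁ - Real.log c₂) / 2 = Real.log c₁ := by
    ring
  have e2 : (Real.log c₁ + Real.log c₂) / 2 + -((Real.log c₁ - Real.log c₂) / 2)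
      = Real.log c₂ := by ring
  rw [e1, e2, Real.exp_log hc₁, Real.exp_log hc₂]

/-- The weight of the weights `±1`. -/
def wt1_773 (p : ℝ × ℝ) : ℝ :=
  (Real.sqrt 2 * (Real.exp (p.2 / 2) * Real.cosh (p.1 / 2)))⁻¹

theorem wt1_contDiff773 : ContDiff ℝ ∞ wt1_773 := by
  unfold wt1_773
  refine ContDiff.inv ?_ fun p => ?_
  · refine contDiff_const.mul ((Real.contDiff_exp.comp (contDiff_snd.div_const 2)).mul
      (Real.contDiff_cosh.comp (contDiff_fst.div_const 2)))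
  · have h1 : 0 < Real.sqrt 2 := Real.sqrt_pos.mpr (by norm_num)
    have h2 := Real.exp_pos (p.2 / 2)
    have h3 := Real.cosh_pos (p.1 / 2)
    positivity

theorem wt1_even773 (u c : ℝ) : wt1_773 (-u, c) = wt1_773 (u, c) := by
  unfold wt1_773
  simp only [neg_div, Real.cosh_neg]

theorem wt1_A773 (c₁ c₂ : ℝ) (hc₁ : 0 < c₁) (hc₂ : 0 < c₂) :
    (c₁ + c₂) / 2 * Real.sqrt (2 * (c₁ * c₂))
      * wt1_773 (Real.log c₁ - Real.log c₂, Real.log c₁ + Real.log c₂)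
      = Real.sqrt (c₁ * c₂) := by
  unfold wt1_773
  simp only
  rw [wt1_key773 c₁ c₂ hc₁ hc₂, Real.sqrt_mul (by norm_num : (0 : ℝ) ≤ 2)]
  have h1 : 0 < Real.sqrt 2 := Real.sqrt_pos.mpr (by norm_num)
  have h2 : 0 < c₁ + c₂ := by linarith
  field_simp

theorem wt0_A773 (c₁ c₂ : ℝ) :
    (1 : ℝ) * Real.sqrt (2 * (c₁ * c₂)) * (Real.sqrt 2)⁻¹ = Real.sqrt (c₁ * c₂) := by
  rw [Real.sqrt_mul (by norm_num : (0 : ℝ) ≤ 2)]
  have h1 : 0 < Real.sqrt 2 := Real.sqrt_pos.mpr (by norm_num)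
  field_simp

/-- **R.1 `AbelRealC`.** -/
theorem abelRealC773 : R.AbelRealC := by
  intro n hn β hβ
  rcases hn with rfl | rfl | rfl
  · refine abelReal_aux773 0 (fun _ => 1) (fun _ => (Real.sqrt 2)⁻¹) (fun _ _ => 1) 0
      continuous_const (fun _ _ _ => contDiff_const) ?_ ?_ ?_ contDiff_const (fun _ _ => rfl)
      (fun c₁ c₂ _ _ => wt0_A773 c₁ c₂) β hβ
    · intro k g _
      simp [wtChar]
    · intro k g _
      simp [wtChar]
    · intro c₁ c₂ x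
      simp
  · refine abelReal_aux773 1 holConj773 wt1_773 (fun c₁ c₂ => (c₁ + c₂) / 2) (Complex.I / 2)
      continuous_holConj773 holConj_family773 ?_ ?_ holConj_upper773 wt1_contDiff773
      wt1_even773 wt1_A773 β hβ
    · intro k g hk
      unfold holConj773
      rw [holPart_so2_mul773 k g hk, map_mul, conj_holPart_so2_773 k hk]
      simp [wtChar]
    · intro k g hk
      unfold holConj773
      rw [holPart_mul_so2_773 k g hk, map_mul, conj_holPart_so2_773 k hk]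
      simp [wtChar]
  · refine abelReal_aux773 (-1) holPart wt1_773 (fun c₁ c₂ => (c₁ + c₂) / 2)
      (-(Complex.I / 2)) continuous_holPart773 holPart_family773 ?_ ?_ holPart_upper773
      wt1_contDiff773 wt1_even773 wt1_A773 β hβ
    · intro k g hk
      rw [holPart_so2_mul773 k g hk]
      simp [wtChar]
    · intro k g hk
      rw [holPart_mul_so2_773 k g hk]
      simp [wtChar]

end Fermat.Agent.LT.T3.H773

end
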